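/-
Programme G1 (target S48 = Deligne–Serre), brick B1-DEFS (helper67), file 1 of 3.

DIAMOND OPERATORS on Mathlib's `ModularForm (Gamma1 N) k` and `CuspForm (Gamma1 N) k`, any weight
`k : ℤ`.

CONVENTION (the same as `DS/G1/FieldDefs62`, `DS/Neben/Main8`, `DS/Eis1`): `⟨d⟩ f = f ∣[k] γ` for any
`γ ∈ Γ₀(N)` whose LOWER RIGHT entry is `≡ d (mod N)`.

* `Inv1 N k f` : the function `f : ℍ → ℂ` is `Γ₁(N)`-invariant of weight `k`.
* `diaMF a`, `diaCF a` (`a : Gamma0 N`) : `f ↦ f ∣[k] a` as `ℂ`-linear endomorphisms of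
  `ModularForm (Gamma1 N) k` / `CuspForm (Gamma1 N) k` (general-weight version of `Family8.dia`).
* `diamondMF d`, `diamond d` (`d : (ZMod N)ˣ`) : the diamond operators; `diamondHom`,
  `diamondMFHom` : `(ZMod N)ˣ →* Module.End ℂ _`.
* `HasNeben χ f` : `f` has nebentypus `χ`; `hasNeben_iff_slash`.
-/
import Mathlib
import Fermat.Agent.DS.Neben.Family8

set_option autoImplicit false
set_option linter.unusedSectionVars false

noncomputable section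

namespace Fermat.Agent.DS.G1.Forms.Diamond67

open CongruenceSubgroup Matrix.SpecialLinearGroup UpperHalfPlane ModularForm ModularFormClass
open scoped MatrixGroups ModularForm Manifold
open Fermat.Agent.DS.Neben.Family8

variable {N : ℕ} {k : ℤ}

/-! ### Function level -/

/-- `f : ℍ → ℂ` is invariant under the weight-`k` action of `Γ₁(N)`. -/
def Inv1 (N : ℕ) (k : ℤ) (f : ℍ → ℂ) : Prop :=
  ∀ γ : SL(2, ℤ), γ ∈ Gamma1 N → f ∣[k] mapGL ℝ γ = f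

theorem σ_mapGL (g : SL(2, ℤ)) : UpperHalfPlane.σ (mapGL ℝ g) = .refl ℝ ℂ := by
  rw [UpperHalfPlane.σ, if_pos]
  simp

theorem smul_slash_mapGL (c : ℂ) (f : ℍ → ℂ) (g : SL(2, ℤ)) :
    (c • f) ∣[k] mapGL ℝ g = c • (f ∣[k] mapGL ℝ g) := by
  rw [ModularForm.smul_slash, σ_mapGL]
  rfl

theorem inv1_coe {F : Type*} [FunLike F ℍ ℂ] [SlashInvariantFormClass F (Gamma1 N) k] (f : F) :
    Inv1 N k (f : ℍ → ℂ) := fun γ hγ ↦
  SlashInvariantFormClass.slash_action_eq f _ ⟨γ, hγ, rfl⟩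

/-- `f ∣ a` only depends on the lower right entry of `a ∈ Γ₀(N)` modulo `N`. -/
theorem Inv1.slash_eq_of_map_eq {f : ℍ → ℂ} (hf : Inv1 N k f) {a₁ a₂ : Gamma0 N}
    (h : Gamma0Map N a₁ = Gamma0Map N a₂) :
    f ∣[k] mapGL ℝ (a₁ : SL(2, ℤ)) = f ∣[k] mapGL ℝ (a₂ : SL(2, ℤ)) := by
  have hmem : ((a₁ * a₂⁻¹ : Gamma0 N) : SL(2, ℤ)) ∈ Gamma1 N :=
    mem_Gamma1_of_map_eq_one _ (Gamma0Map_mul_inv_eq_one h)
  have heq : (a₁ : SL(2, ℤ)) = ((a₁ * a₂⁻¹ : Gamma0 N) : SL(2, ℤ)) * (a₂ : SL(2, ℤ)) := by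
    rw [← Subgroup.coe_mul, inv_mul_cancel_right]
  conv_lhs => rw [heq, map_mul, SlashAction.slash_mul]
  rw [hf _ hmem]

/-- `Γ₁(N)` is normal in `Γ₀(N)`: the slash by `a ∈ Γ₀(N)` preserves `Γ₁(N)`-invariance. -/
theorem Inv1.slash {f : ℍ → ℂ} (hf : Inv1 N k f) (a : Gamma0 N) :
    Inv1 N k (f ∣[k] mapGL ℝ (a : SL(2, ℤ))) := by
  intro γ hγ
  have hγ0 : γ ∈ Gamma0 N := Gamma1_in_Gamma0 N hγ
  have h1 : Gamma0Map N ⟨γ, hγ0⟩ = 1 := ((Gamma1_mem N γ).mp hγ).2.1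
  have := hf.slash_eq_of_map_eq (a₁ := a * ⟨γ, hγ0⟩) (a₂ := a) (by rw [map_mul, h1, mul_one])
  rw [← SlashAction.slash_mul, ← map_mul]
  exact this

variable [NeZero N]

/-! ### The family `a ↦ f ∣ a`, `a ∈ Γ₀(N)` -/

/-- `f ↦ f ∣[k] a` on `CuspForm (Gamma1 N) k`, `a ∈ Γ₀(N)`. -/
def diaCF (a : Gamma0 N) : CuspForm (Gamma1 N) k →ₗ[ℂ] CuspForm (Gamma1 N) k where
  toFun f :=
    { toFun := (f : ℍ → ℂ) ∣[k] mapGL ℝ (a : SL(2, ℤ))
      slash_action_eq' := by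
        rintro _ ⟨γ, hγ, rfl⟩
        exact (inv1_coe f).slash a γ hγ
      holo' := (CuspFormClass.holo f).slash k _
      zero_at_cusps' := by
        intro c hc
        rw [← OnePoint.IsZeroAt.smul_iff]
        refine CuspFormClass.zero_at_cusps f ?_
        rw [Subgroup.IsArithmetic.isCusp_iff_isCusp_SL2Z] at hc ⊢
        exact hc.smul_of_mem ⟨_, rfl⟩ }
  map_add' f g := by
    apply DFunLike.ext
    intro τ
    change (((f + g : CuspForm (Gamma1 N) k) : ℍ → ℂ) ∣[k] mapGL ℝ (a : SL(2, ℤ))) τ = _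
    rw [FunLike.coe_add, SlashAction.add_slash]
    rfl
  map_smul' c f := by
    apply DFunLike.ext
    intro τ
    change (((c • f : CuspForm (Gamma1 N) k) : ℍ → ℂ) ∣[k] mapGL ℝ (a : SL(2, ℤ))) τ = _
    rw [FunLike.coe_smul, smul_slash_mapGL]
    rfl

/-- `f ↦ f ∣[k] a` on `ModularForm (Gamma1 N) k`, `a ∈ Γ₀(N)`. -/
def diaMF (a : Gamma0 N) : ModularForm (Gamma1 N) k →ₗ[ℂ] ModularForm (Gamma1 N) k where
  toFun f :=
    { toFun := (f : ℍ → ℂ) ∣[k] mapGL ℝ (a : SL(2, ℤ))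
      slash_action_eq' := by
        rintro _ ⟨γ, hγ, rfl⟩
        exact (inv1_coe f).slash a γ hγ
      holo' := (ModularFormClass.holo f).slash k _
      bdd_at_cusps' := by
        intro c hc
        rw [← OnePoint.IsBoundedAt.smul_iff]
        refine ModularFormClass.bdd_at_cusps f ?_
        rw [Subgroup.IsArithmetic.isCusp_iff_isCusp_SL2Z] at hc ⊢
        exact hc.smul_of_mem ⟨_, rfl⟩ }
  map_add' f g := by
    apply DFunLike.ext
    intro τ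
    change (((f + g : ModularForm (Gamma1 N) k) : ℍ → ℂ) ∣[k] mapGL ℝ (a : SL(2, ℤ))) τ = _
    rw [FunLike.coe_add, SlashAction.add_slash]
    rfl
  map_smul' c f := by
    apply DFunLike.ext
    intro τ
    change (((c • f : ModularForm (Gamma1 N) k) : ℍ → ℂ) ∣[k] mapGL ℝ (a : SL(2, ℤ))) τ = _
    rw [FunLike.coe_smul, smul_slash_mapGL]
    rfl

@[simp] theorem coe_diaCF (a : Gamma0 N) (f : CuspForm (Gamma1 N) k) :
    ⇑(diaCF a f) = (f : ℍ → ℂ) ∣[k] mapGL ℝ (a : SL(2, ℤ)) := rfl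

@[simp] theorem coe_diaMF (a : Gamma0 N) (f : ModularForm (Gamma1 N) k) :
    ⇑(diaMF a f) = (f : ℍ → ℂ) ∣[k] mapGL ℝ (a : SL(2, ℤ)) := rfl

theorem diaCF_eq_of_map_eq {a₁ a₂ : Gamma0 N} (h : Gamma0Map N a₁ = Gamma0Map N a₂) :
    (diaCF a₁ : CuspForm (Gamma1 N) k →ₗ[ℂ] _) = diaCF a₂ := by
  ext f : 1
  exact DFunLike.coe_injective ((inv1_coe f).slash_eq_of_map_eq h)

theorem diaMF_eq_of_map_eq {a₁ a₂ : Gamma0 N} (h : Gamma0Map N a₁ = Gamma0Map N a₂) :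
    (diaMF a₁ : ModularForm (Gamma1 N) k →ₗ[ℂ] _) = diaMF a₂ := by
  ext f : 1
  exact DFunLike.coe_injective ((inv1_coe f).slash_eq_of_map_eq h)

theorem diaCF_one : (diaCF 1 : CuspForm (Gamma1 N) k →ₗ[ℂ] _) = LinearMap.id := by
  ext f : 1
  apply DFunLike.coe_injective
  rw [coe_diaCF]
  simp

theorem diaMF_one : (diaMF 1 : ModularForm (Gamma1 N) k →ₗ[ℂ] _) = LinearMap.id := by
  ext f : 1
  apply DFunLike.coe_injective
  rw [coe_diaMF]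
  simp

/-- `f ∣ (a b) = (f ∣ a) ∣ b`. -/
theorem diaCF_mul (a b : Gamma0 N) :
    (diaCF (a * b) : CuspForm (Gamma1 N) k →ₗ[ℂ] _) = diaCF b ∘ₗ diaCF a := by
  ext f : 1
  apply DFunLike.coe_injective
  rw [LinearMap.comp_apply, coe_diaCF, coe_diaCF, coe_diaCF, ← SlashAction.slash_mul, ← map_mul]
  rfl

theorem diaMF_mul (a b : Gamma0 N) :
    (diaMF (a * b) : ModularForm (Gamma1 N) k →ₗ[ℂ] _) = diaMF b ∘ₗ diaMF a := by
  ext f : 1
  apply DFunLike.coe_injective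
  rw [LinearMap.comp_apply, coe_diaMF, coe_diaMF, coe_diaMF, ← SlashAction.slash_mul, ← map_mul]
  rfl

/-! ### The diamond operators -/

/-- a representative in `Γ₀(N)` of `d ∈ (ℤ/N)ˣ` (lower right entry `≡ d`). -/
def rep (d : (ZMod N)ˣ) : Gamma0 N :=
  (exists_Gamma0 (N := N) (M := N) dvd_rfl d).choose

theorem Gamma0Map_rep (d : (ZMod N)ˣ) : Gamma0Map N (rep d) = (d : ZMod N) :=
  (exists_Gamma0 (N := N) (M := N) dvd_rfl d).choose_spec.2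

/-- **The diamond operator `⟨d⟩`** on `CuspForm (Gamma1 N) k`. -/
def diamond (d : (ZMod N)ˣ) : CuspForm (Gamma1 N) k →ₗ[ℂ] CuspForm (Gamma1 N) k :=
  diaCF (rep d)

/-- **The diamond operator `⟨d⟩`** on `ModularForm (Gamma1 N) k`. -/
def diamondMF (d : (ZMod N)ˣ) : ModularForm (Gamma1 N) k →ₗ[ℂ] ModularForm (Gamma1 N) k :=
  diaMF (rep d)

theorem diamond_eq_diaCF {d : (ZMod N)ˣ} {a : Gamma0 N} (h : Gamma0Map N a = (d : ZMod N)) :
    (diamond d : CuspForm (Gamma1 N) k →ₗ[ℂ] _) = diaCF a :=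
  diaCF_eq_of_map_eq ((Gamma0Map_rep d).trans h.symm)

theorem diamondMF_eq_diaMF {d : (ZMod N)ˣ} {a : Gamma0 N} (h : Gamma0Map N a = (d : ZMod N)) :
    (diamondMF d : ModularForm (Gamma1 N) k →ₗ[ℂ] _) = diaMF a :=
  diaMF_eq_of_map_eq ((Gamma0Map_rep d).trans h.symm)

/-- `⟨d⟩ f = f ∣[k] γ` for every `γ ∈ Γ₀(N)` with lower right entry `≡ d`. -/
theorem coe_diamond {d : (ZMod N)ˣ} (γ : SL(2, ℤ)) (hγ : γ ∈ Gamma0 N)
    (h : ((γ 1 1 : ℤ) : ZMod N) = (d : ZMod N)) (f : CuspForm (Gamma1 N) k) :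
    ⇑(diamond d f) = (f : ℍ → ℂ) ∣[k] mapGL ℝ γ := by
  rw [diamond_eq_diaCF (a := ⟨γ, hγ⟩) h]
  rfl

theorem coe_diamondMF {d : (ZMod N)ˣ} (γ : SL(2, ℤ)) (hγ : γ ∈ Gamma0 N)
    (h : ((γ 1 1 : ℤ) : ZMod N) = (d : ZMod N)) (f : ModularForm (Gamma1 N) k) :
    ⇑(diamondMF d f) = (f : ℍ → ℂ) ∣[k] mapGL ℝ γ := by
  rw [diamondMF_eq_diaMF (a := ⟨γ, hγ⟩) h]
  rfl

theorem diamond_one : (diamond 1 : CuspForm (Gamma1 N) k →ₗ[ℂ] _) = LinearMap.id := by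
  rw [diamond_eq_diaCF (a := 1) (by simp), diaCF_one]

theorem diamondMF_one : (diamondMF 1 : ModularForm (Gamma1 N) k →ₗ[ℂ] _) = LinearMap.id := by
  rw [diamondMF_eq_diaMF (a := 1) (by simp), diaMF_one]

theorem diamond_mul (d e : (ZMod N)ˣ) :
    (diamond (d * e) : CuspForm (Gamma1 N) k →ₗ[ℂ] _) = diamond d ∘ₗ diamond e := by
  have h : Gamma0Map N (rep e * rep d) = ((d * e : (ZMod N)ˣ) : ZMod N) := by
    rw [map_mul, Gamma0Map_rep, Gamma0Map_rep, Units.val_mul, mul_comm]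
  rw [diamond_eq_diaCF h, diaCF_mul]
  rfl

theorem diamondMF_mul (d e : (ZMod N)ˣ) :
    (diamondMF (d * e) : ModularForm (Gamma1 N) k →ₗ[ℂ] _) = diamondMF d ∘ₗ diamondMF e := by
  have h : Gamma0Map N (rep e * rep d) = ((d * e : (ZMod N)ˣ) : ZMod N) := by
    rw [map_mul, Gamma0Map_rep, Gamma0Map_rep, Units.val_mul, mul_comm]
  rw [diamondMF_eq_diaMF h, diaMF_mul]
  rfl

theorem diamond_comm (d e : (ZMod N)ˣ) :
    (diamond d : CuspForm (Gamma1 N) k →ₗ[ℂ] _) ∘ₗ diamond e = diamond e ∘ₗ diamond d := by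
  rw [← diamond_mul, ← diamond_mul, mul_comm]

theorem diamondMF_comm (d e : (ZMod N)ˣ) :
    (diamondMF d : ModularForm (Gamma1 N) k →ₗ[ℂ] _) ∘ₗ diamondMF e =
      diamondMF e ∘ₗ diamondMF d := by
  rw [← diamondMF_mul, ← diamondMF_mul, mul_comm]

/-- The diamond operators as a monoid homomorphism `(ℤ/N)ˣ →* End_ℂ(S_k(Γ₁(N)))`. -/
def diamondHom : (ZMod N)ˣ →* Module.End ℂ (CuspForm (Gamma1 N) k) where
  toFun := diamond
  map_one' := diamond_one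
  map_mul' d e := diamond_mul d e

/-- The diamond operators as a monoid homomorphism `(ℤ/N)ˣ →* End_ℂ(M_k(Γ₁(N)))`. -/
def diamondMFHom : (ZMod N)ˣ →* Module.End ℂ (ModularForm (Gamma1 N) k) where
  toFun := diamondMF
  map_one' := diamondMF_one
  map_mul' d e := diamondMF_mul d e

@[simp] theorem diamondHom_apply (d : (ZMod N)ˣ) :
    (diamondHom d : Module.End ℂ (CuspForm (Gamma1 N) k)) = diamond d := rfl

@[simp] theorem diamondMFHom_apply (d : (ZMod N)ˣ) :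
    (diamondMFHom d : Module.End ℂ (ModularForm (Gamma1 N) k)) = diamondMF d := rfl

/-- `⟨a⟩`-slash of a cusp form by an arbitrary element of `Γ₀(N)`, in terms of the diamond
operators. -/
theorem slash_Gamma0_eq_diamond (f : CuspForm (Gamma1 N) k) (γ : SL(2, ℤ)) (hγ : γ ∈ Gamma0 N) :
    (f : ℍ → ℂ) ∣[k] mapGL ℝ γ =
      ⇑(diamond (isUnit_Gamma0Map (N := N) ⟨γ, hγ⟩).unit f) := by
  rw [coe_diamond γ hγ]
  rfl

theorem slash_Gamma0_eq_diamondMF (f : ModularForm (Gamma1 N) k) (γ : SL(2, ℤ))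
    (hγ : γ ∈ Gamma0 N) :
    (f : ℍ → ℂ) ∣[k] mapGL ℝ γ =
      ⇑(diamondMF (isUnit_Gamma0Map (N := N) ⟨γ, hγ⟩).unit f) := by
  rw [coe_diamondMF γ hγ]
  rfl

/-! ### Nebentypus -/

/-- `f` has nebentypus `χ`: `⟨d⟩ f = χ(d) f` for all `d`. -/
def HasNeben (χ : DirichletCharacter ℂ N) (f : CuspForm (Gamma1 N) k) : Prop :=
  ∀ d : (ZMod N)ˣ, diamond d f = χ (d : ZMod N) • f

/-- `f` has nebentypus `χ`: `⟨d⟩ f = χ(d) f` for all `d`. -/
def HasNebenMF (χ : DirichletCharacter ℂ N) (f : ModularForm (Gamma1 N) k) : Prop :=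
  ∀ d : (ZMod N)ˣ, diamondMF d f = χ (d : ZMod N) • f

/-- Nebentypus in the slash shape of `DS/Neben/Main8.nebentypus_SL` and `DS/Eis1`. -/
theorem hasNeben_iff_slash (χ : DirichletCharacter ℂ N) (f : CuspForm (Gamma1 N) k) :
    HasNeben χ f ↔ ∀ γ : SL(2, ℤ), γ ∈ Gamma0 N →
      (f : ℍ → ℂ) ∣[k] mapGL ℝ γ = χ ((γ 1 1 : ℤ) : ZMod N) • (f : ℍ → ℂ) := by
  constructor
  · intro h γ hγ
    rw [slash_Gamma0_eq_diamond f γ hγ, h]
    rfl
  · intro h d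
    apply DFunLike.coe_injective
    have hd := Gamma0Map_rep d
    rw [show ⇑(diamond d f) = (f : ℍ → ℂ) ∣[k] mapGL ℝ ((rep d : Gamma0 N) : SL(2, ℤ)) from rfl,
      h _ (rep d).2]
    have : (((rep d : Gamma0 N) : SL(2, ℤ)) 1 1 : ZMod N) = (d : ZMod N) := hd
    rw [this]
    rfl

theorem hasNebenMF_iff_slash (χ : DirichletCharacter ℂ N) (f : ModularForm (Gamma1 N) k) :
    HasNebenMF χ f ↔ ∀ γ : SL(2, ℤ), γ ∈ Gamma0 N →
      (f : ℍ → ℂ) ∣[k] mapGL ℝ γ = χ ((γ 1 1 : ℤ) : ZMod N) • (f : ℍ → ℂ) := by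
  constructor
  · intro h γ hγ
    rw [slash_Gamma0_eq_diamondMF f γ hγ, h]
    rfl
  · intro h d
    apply DFunLike.coe_injective
    have hd := Gamma0Map_rep d
    rw [show ⇑(diamondMF d f) = (f : ℍ → ℂ) ∣[k] mapGL ℝ ((rep d : Gamma0 N) : SL(2, ℤ)) from rfl,
      h _ (rep d).2]
    have : (((rep d : Gamma0 N) : SL(2, ℤ)) 1 1 : ZMod N) = (d : ZMod N) := hd
    rw [this]
    rfl

end Fermat.Agent.DS.G1.Forms.Diamond67
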