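/-
Programme G1 (target S48 = Deligne–Serre), brick B1-DEFS (helper67), file 2 of 3.

THE HECKE OPERATORS `T_p`, `p ∤ N` prime, on Mathlib's `CuspForm (Gamma1 N) k` and
`ModularForm (Gamma1 N) k`, any weight `k : ℤ`:

  `T_p f = ∑_{x ∈ ℙ¹(𝔽_p)} (⟨w x⟩ f) ∣[k] μ_x = U_p f + (⟨p⟩ f) ∣[k] [p 0; 0 1]`,

`μ_j = [1 j; 0 p]`, `μ_∞ = [p 0; 0 1]`, `w ∞ = p`, `w j = 1` (normalisation of the Prelude's `heckeT`:
`a_n(T_p f) = a_{np}(f) + p^{k-1} a_{n/p}(⟨p⟩ f)`).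

* `IsDiaFamily N k D` : `D : (ℤ/N)ˣ → (ℍ → ℂ)` behaves like `u ↦ ⟨u⟩ f`;
  `TTfun`, `TTfun_slash` : the weighted Hecke sum and its slash by `g ∈ Γ₀(N)` (the coset bookkeeping is
  `DS/Neben/CosetTrack8.heckeRep_mul_track`).
* `heckeT1 p hpN : CuspForm (Gamma1 N) k →ₗ[ℂ] CuspForm (Gamma1 N) k`, `heckeT1MF` on `ModularForm`;
  `coe_heckeT1`, `heckeT1_diamond_comm`.
* `qCoeff_heckeT1`, `qCoeff_heckeT1MF` : the `q`-expansion formula; `qCoeff_heckeT1_of_hasNeben`.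
-/
import Mathlib
import Fermat.Agent.DS.G1.Forms.Diamond67
import Fermat.Agent.DS.Neben.CosetTrack8
import Fermat.Prelude.Thm_ModularFormClass_isBoundedAt_heckeU
import Fermat.Prelude.Thm_ModularFormClass_isBoundedAt_heckeT
import Fermat.Prelude.Thm_CuspFormClass_isZeroAt_heckeU
import Fermat.Prelude.Thm_CuspFormClass_isZeroAt_heckeT
import Fermat.Prelude.Thm_ModularForm_mdifferentiable_heckeU
import Fermat.Prelude.Thm_UpperHalfPlane_qCoeff_heckeT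

set_option autoImplicit false
set_option linter.unusedSectionVars false

noncomputable section

namespace Fermat.Agent.DS.G1.Forms.HeckeOne67

open CongruenceSubgroup Matrix.SpecialLinearGroup UpperHalfPlane ModularForm ModularFormClass
open scoped MatrixGroups ModularForm Manifold OnePoint
open Fermat.Agent.DS.Neben.CoeffCompare8 Fermat.Agent.DS.Neben.CosetTrack8
open Fermat.Agent.DS.Neben.Family8 Fermat.Agent.DS.G1.Forms.Diamond67
open P2MW.S_UpperHalfPlane_qCoeff_heckeT.M4cP1W2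

variable {N p : ℕ} {k : ℤ}

/-! ### Small analytic lemmas -/

theorem isBoundedAt_neg {c : OnePoint ℝ} {f : ℍ → ℂ} (hf : c.IsBoundedAt f k) :
    c.IsBoundedAt (-f) k := fun g hg ↦ by
  have := (hf g hg).neg
  rwa [← SlashAction.neg_slash] at this

theorem isZeroAt_neg {c : OnePoint ℝ} {f : ℍ → ℂ} (hf : c.IsZeroAt f k) :
    c.IsZeroAt (-f) k := fun g hg ↦ by
  have := (hf g hg).neg
  rwa [← SlashAction.neg_slash] at this

theorem slash_diag_eq (f : ℍ → ℂ) :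
    f ∣[k] heckeDiagMatrix p = heckeT k p f + -(heckeU k p f) := by
  rw [heckeT_eq_heckeU_add]
  abel

/-- Modular forms of level `Γ₁(N)` have `q`-expansions of period `1`. -/
theorem nice_coe {F : Type*} [FunLike F ℍ ℂ] [ModularFormClass F (Gamma1 N) k] (f : F) :
    Nice (f : ℍ → ℂ) := by
  have : Fact (IsCusp OnePoint.infty (Subgroup.map (mapGL ℝ) (Gamma1 N))) :=
    ⟨Subgroup.isCusp_of_mem_strictPeriods one_pos one_mem_strictPeriods⟩
  exact ⟨SlashInvariantFormClass.periodic_comp_ofComplex f one_mem_strictPeriods,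
    ModularFormClass.holo f, bdd_at_infty f⟩

instance instMFC_of_CFC : ModularFormClass (CuspForm (Gamma1 N) k) (Gamma1 N) k :=
  inferInstance

/-! ### Diamond families and the weighted Hecke sum -/

/-- `D : (ℤ/N)ˣ → (ℍ → ℂ)` behaves like the diamond family `u ↦ ⟨u⟩ f` of a `Γ₁(N)`-form. -/
def IsDiaFamily (N : ℕ) (k : ℤ) (D : (ZMod N)ˣ → ℍ → ℂ) : Prop :=
  ∀ (u e : (ZMod N)ˣ) (γ : SL(2, ℤ)), (N : ℤ) ∣ γ 1 0 → ((γ 1 1 : ℤ) : ZMod N) = (e : ZMod N) →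
    D u ∣[k] mapGL ℝ γ = D (e * u)

theorem IsDiaFamily.mul_left {D : (ZMod N)ˣ → ℍ → ℂ} (hD : IsDiaFamily N k D) (e : (ZMod N)ˣ) :
    IsDiaFamily N k (fun u ↦ D (e * u)) := by
  intro u e' γ hγ h
  change D (e * u) ∣[k] mapGL ℝ γ = D (e * (e' * u))
  rw [hD (e * u) e' γ hγ h, mul_left_comm]

variable [NeZero N]

theorem isDiaFamily_diamond (f : CuspForm (Gamma1 N) k) :
    IsDiaFamily N k (fun u ↦ ⇑(diamond u f)) := by
  intro u e γ hγ h
  have hγ0 : γ ∈ Gamma0 N :=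
    Gamma0_mem.mpr ((ZMod.intCast_zmod_eq_zero_iff_dvd _ _).mpr hγ)
  change ⇑(diamond u f) ∣[k] mapGL ℝ γ = ⇑(diamond (e * u) f)
  rw [← coe_diamond γ hγ0 h (diamond u f), diamond_mul]
  rfl

theorem isDiaFamily_diamondMF (f : ModularForm (Gamma1 N) k) :
    IsDiaFamily N k (fun u ↦ ⇑(diamondMF u f)) := by
  intro u e γ hγ h
  have hγ0 : γ ∈ Gamma0 N :=
    Gamma0_mem.mpr ((ZMod.intCast_zmod_eq_zero_iff_dvd _ _).mpr hγ)
  change ⇑(diamondMF u f) ∣[k] mapGL ℝ γ = ⇑(diamondMF (e * u) f)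
  rw [← coe_diamondMF γ hγ0 h (diamondMF u f), diamondMF_mul]
  rfl

variable [Fact p.Prime]

/-- `p` as a unit modulo `N`, for `p ∤ N` prime. -/
def unitP (hpN : ¬ p ∣ N) : (ZMod N)ˣ :=
  ZMod.unitOfCoprime p ((Nat.Prime.coprime_iff_not_dvd Fact.out).mpr hpN)

@[simp] theorem coe_unitP (hpN : ¬ p ∣ N) : ((unitP hpN : (ZMod N)ˣ) : ZMod N) = (p : ZMod N) :=
  ZMod.coe_unitOfCoprime p _

theorem coe_inv_unitP (hpN : ¬ p ∣ N) :
    (((unitP hpN)⁻¹ : (ZMod N)ˣ) : ZMod N) = ((p : ZMod N))⁻¹ := by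
  have h1 : ((unitP hpN : (ZMod N)ˣ) : ZMod N) * (((unitP hpN)⁻¹ : (ZMod N)ˣ) : ZMod N) = 1 := by
    rw [← Units.val_mul, mul_inv_cancel, Units.val_one]
  rw [coe_unitP] at h1
  have h2 := natCast_mul_inv (p := p) (N := N) hpN
  calc (((unitP hpN)⁻¹ : (ZMod N)ˣ) : ZMod N)
      = ((p : ZMod N))⁻¹ * ((p : ZMod N) * (((unitP hpN)⁻¹ : (ZMod N)ˣ) : ZMod N)) := by
        rw [← mul_assoc, mul_comm ((p : ZMod N))⁻¹, h2, one_mul]
    _ = ((p : ZMod N))⁻¹ := by rw [h1, mul_one]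

/-- The diamond weight of the representative `μ_x`: `⟨p⟩` at `∞`, `1` at the finite points. -/
def wU (hpN : ¬ p ∣ N) (x : OnePoint (ZMod p)) : (ZMod N)ˣ :=
  x.elim (unitP hpN) (fun _ ↦ 1)

@[simp] theorem wU_infty (hpN : ¬ p ∣ N) : wU hpN (∞ : OnePoint (ZMod p)) = unitP hpN := rfl

@[simp] theorem wU_coe (hpN : ¬ p ∣ N) (j : ZMod p) :
    wU hpN (j : OnePoint (ZMod p)) = 1 := rfl

/-- `τ(x, y) = w(y) / w(x)`. -/
theorem tau_eq (hpN : ¬ p ∣ N) (x y : OnePoint (ZMod p)) :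
    tau p N x y = ((wU hpN y * (wU hpN x)⁻¹ : (ZMod N)ˣ) : ZMod N) := by
  induction x using OnePoint.rec with
  | infty =>
    induction y using OnePoint.rec with
    | infty => simp
    | coe j => simp [coe_inv_unitP]
  | coe i =>
    induction y using OnePoint.rec with
    | infty => simp
    | coe j => simp

/-- **The weighted Hecke sum** `∑_x D(w x) ∣[k] μ_x`. -/
def TTfun (k : ℤ) (hpN : ¬ p ∣ N) (D : (ZMod N)ˣ → ℍ → ℂ) : ℍ → ℂ :=
  ∑ x : OnePoint (ZMod p), D (wU hpN x) ∣[k] heckeRep p x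

theorem TTfun_eq (hpN : ¬ p ∣ N) (D : (ZMod N)ˣ → ℍ → ℂ) :
    TTfun k hpN D = heckeU k p (D 1) + D (unitP hpN) ∣[k] heckeDiagMatrix p := by
  rw [TTfun, heckeU_eq_sum_zmod, add_comm]
  exact Fintype.sum_option (fun x : OnePoint (ZMod p) ↦ D (wU hpN x) ∣[k] heckeRep p x)

/-- **Slashing the weighted Hecke sum by `g ∈ Γ₀(N)`**: `(T D) ∣ g = T (⟨g₁₁⟩ D)`. -/
theorem TTfun_slash (hpN : ¬ p ∣ N) {D : (ZMod N)ˣ → ℍ → ℂ} (hD : IsDiaFamily N k D)
    (g : SL(2, ℤ)) (hgN : (N : ℤ) ∣ g 1 0) (e : (ZMod N)ˣ)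
    (he : ((g 1 1 : ℤ) : ZMod N) = (e : ZMod N)) :
    (TTfun k hpN D) ∣[k] mapGL ℝ g = TTfun k hpN (fun u ↦ D (e * u)) := by
  unfold TTfun
  rw [SlashAction.sum_slash]
  rw [← Equiv.sum_comp (MulAction.toPerm (redMatrix p g))
    (fun y ↦ D (e * wU hpN y) ∣[k] heckeRep p y)]
  refine Finset.sum_congr rfl fun x _ ↦ ?_
  simp only [MulAction.toPerm_apply]
  obtain ⟨g', hg'N, hg'11, hmul⟩ := heckeRep_mul_track hpN g hgN x
  rw [← SlashAction.slash_mul, hmul, SlashAction.slash_mul]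
  congr 1
  set y := redMatrix p g • x with hy
  have h11 : ((g' 1 1 : ℤ) : ZMod N) = ((e * (wU hpN y * (wU hpN x)⁻¹) : (ZMod N)ˣ) : ZMod N) := by
    rw [hg'11, he, tau_eq hpN]
    simp only [Units.val_mul]
  rw [hD (wU hpN x) _ g' hg'N h11]
  congr 1
  rw [mul_assoc, mul_assoc, inv_mul_cancel, mul_one]

/-- `T D` is `Γ₁(N)`-invariant. -/
theorem inv1_TTfun (hpN : ¬ p ∣ N) {D : (ZMod N)ˣ → ℍ → ℂ} (hD : IsDiaFamily N k D) :
    Inv1 N k (TTfun k hpN D) := by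
  intro γ hγ
  have h := (Gamma1_mem N γ).mp hγ
  have hγN : (N : ℤ) ∣ γ 1 0 := (ZMod.intCast_zmod_eq_zero_iff_dvd _ _).mp h.2.2
  rw [TTfun_slash hpN hD γ hγN 1 (by rw [h.2.1]; rfl)]
  simp only [one_mul]

/-! ### `T_p` on cusp forms -/

/-- the underlying function of `T_p f`. -/
def T1fun (hpN : ¬ p ∣ N) (f : CuspForm (Gamma1 N) k) : ℍ → ℂ :=
  TTfun k hpN (fun u ↦ ⇑(diamond u f))

theorem T1fun_eq (hpN : ¬ p ∣ N) (f : CuspForm (Gamma1 N) k) :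
    T1fun hpN f = heckeU k p ⇑f + ⇑(diamond (unitP hpN) f) ∣[k] heckeDiagMatrix p := by
  rw [T1fun, TTfun_eq, diamond_one]
  rfl

theorem T1fun_add (hpN : ¬ p ∣ N) (f g : CuspForm (Gamma1 N) k) :
    T1fun hpN (f + g) = T1fun hpN f + T1fun hpN g := by
  rw [T1fun_eq, T1fun_eq, T1fun_eq, map_add, FunLike.coe_add, FunLike.coe_add, heckeU_add,
    SlashAction.add_slash]
  abel

theorem T1fun_smul (hpN : ¬ p ∣ N) (c : ℂ) (f : CuspForm (Gamma1 N) k) :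
    T1fun hpN (c • f) = c • T1fun hpN f := by
  rw [T1fun_eq, T1fun_eq, map_smul, FunLike.coe_smul, FunLike.coe_smul, heckeU_smul,
    ModularForm.smul_slash, σ_heckeDiagMatrix, smul_add]
  rfl

theorem mdiff_T1fun (hpN : ¬ p ∣ N) (f : CuspForm (Gamma1 N) k) : MDiff (T1fun hpN f) := by
  rw [T1fun_eq]
  exact (ModularForm.mdifferentiable_heckeU (CuspFormClass.holo f) k p).add
    ((CuspFormClass.holo (diamond (unitP hpN) f)).slash k _)

theorem isZeroAt_T1fun (hpN : ¬ p ∣ N) (f : CuspForm (Gamma1 N) k) {c : OnePoint ℝ}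
    (hc : IsCusp c (Subgroup.map (mapGL ℝ) (Gamma1 N))) : c.IsZeroAt (T1fun hpN f) k := by
  rw [T1fun_eq, slash_diag_eq]
  exact (CuspFormClass.isZeroAt_heckeU f p hc).add
    ((CuspFormClass.isZeroAt_heckeT (diamond (unitP hpN) f) p hc).add
      (isZeroAt_neg (CuspFormClass.isZeroAt_heckeU (diamond (unitP hpN) f) p hc)))

/-- **The Hecke operator `T_p`, `p ∤ N`, on `S_k(Γ₁(N))`.** -/
def heckeT1 (p : ℕ) [Fact p.Prime] (hpN : ¬ p ∣ N) :
    CuspForm (Gamma1 N) k →ₗ[ℂ] CuspForm (Gamma1 N) k where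
  toFun f :=
    { toFun := T1fun hpN f
      slash_action_eq' := by
        rintro _ ⟨γ, hγ, rfl⟩
        exact inv1_TTfun hpN (isDiaFamily_diamond f) γ hγ
      holo' := mdiff_T1fun hpN f
      zero_at_cusps' := fun hc ↦ isZeroAt_T1fun hpN f hc }
  map_add' f g := DFunLike.coe_injective (T1fun_add hpN f g)
  map_smul' c f := DFunLike.coe_injective (T1fun_smul hpN c f)

theorem coe_heckeT1 (hpN : ¬ p ∣ N) (f : CuspForm (Gamma1 N) k) :
    ⇑(heckeT1 p hpN f) = heckeU k p ⇑f + ⇑(diamond (unitP hpN) f) ∣[k] heckeDiagMatrix p :=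
  T1fun_eq hpN f

theorem coe_heckeT1_eq_sum (hpN : ¬ p ∣ N) (f : CuspForm (Gamma1 N) k) :
    ⇑(heckeT1 p hpN f) = ∑ x : OnePoint (ZMod p), ⇑(diamond (wU hpN x) f) ∣[k] heckeRep p x :=
  rfl

/-- `T_p` commutes with the diamond operators. -/
theorem heckeT1_diamond_comm (hpN : ¬ p ∣ N) (d : (ZMod N)ˣ) :
    (heckeT1 p hpN : CuspForm (Gamma1 N) k →ₗ[ℂ] _) ∘ₗ diamond d = diamond d ∘ₗ heckeT1 p hpN := by
  ext f : 1
  apply DFunLike.coe_injective
  rw [LinearMap.comp_apply, LinearMap.comp_apply]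
  have hd := Gamma0Map_rep d
  have hrepN : (N : ℤ) ∣ ((rep d : Gamma0 N) : SL(2, ℤ)) 1 0 :=
    (ZMod.intCast_zmod_eq_zero_iff_dvd _ _).mp (Gamma0_mem.mp (rep d).2)
  have h1 : ⇑(diamond d (heckeT1 p hpN f)) =
      ⇑(heckeT1 p hpN f) ∣[k] mapGL ℝ ((rep d : Gamma0 N) : SL(2, ℤ)) := rfl
  rw [h1, coe_heckeT1_eq_sum, coe_heckeT1_eq_sum]
  have h2 := TTfun_slash hpN (isDiaFamily_diamond f) ((rep d : Gamma0 N) : SL(2, ℤ)) hrepN d hd
  unfold TTfun at h2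
  rw [h2]
  refine Finset.sum_congr rfl fun x _ ↦ ?_
  congr 1
  show ⇑(diamond (wU hpN x) (diamond d f)) = ⇑(diamond (d * wU hpN x) f)
  rw [mul_comm, diamond_mul]
  rfl

/-! ### `T_p` on modular forms -/

/-- the underlying function of `T_p f`. -/
def T1funMF (hpN : ¬ p ∣ N) (f : ModularForm (Gamma1 N) k) : ℍ → ℂ :=
  TTfun k hpN (fun u ↦ ⇑(diamondMF u f))

theorem T1funMF_eq (hpN : ¬ p ∣ N) (f : ModularForm (Gamma1 N) k) :
    T1funMF hpN f = heckeU k p ⇑f + ⇑(diamondMF (unitP hpN) f) ∣[k] heckeDiagMatrix p := by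
  rw [T1funMF, TTfun_eq, diamondMF_one]
  rfl

theorem T1funMF_add (hpN : ¬ p ∣ N) (f g : ModularForm (Gamma1 N) k) :
    T1funMF hpN (f + g) = T1funMF hpN f + T1funMF hpN g := by
  rw [T1funMF_eq, T1funMF_eq, T1funMF_eq, map_add, FunLike.coe_add, FunLike.coe_add, heckeU_add,
    SlashAction.add_slash]
  abel

theorem T1funMF_smul (hpN : ¬ p ∣ N) (c : ℂ) (f : ModularForm (Gamma1 N) k) :
    T1funMF hpN (c • f) = c • T1funMF hpN f := by
  rw [T1funMF_eq, T1funMF_eq, map_smul, FunLike.coe_smul, FunLike.coe_smul, heckeU_smul,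
    ModularForm.smul_slash, σ_heckeDiagMatrix, smul_add]
  rfl

theorem mdiff_T1funMF (hpN : ¬ p ∣ N) (f : ModularForm (Gamma1 N) k) :
    MDiff (T1funMF hpN f) := by
  rw [T1funMF_eq]
  exact (ModularForm.mdifferentiable_heckeU (ModularFormClass.holo f) k p).add
    ((ModularFormClass.holo (diamondMF (unitP hpN) f)).slash k _)

theorem isBoundedAt_T1funMF (hpN : ¬ p ∣ N) (f : ModularForm (Gamma1 N) k) {c : OnePoint ℝ}
    (hc : IsCusp c (Subgroup.map (mapGL ℝ) (Gamma1 N))) : c.IsBoundedAt (T1funMF hpN f) k := by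
  rw [T1funMF_eq, slash_diag_eq]
  exact (ModularFormClass.isBoundedAt_heckeU f p hc).add
    ((ModularFormClass.isBoundedAt_heckeT (diamondMF (unitP hpN) f) p hc).add
      (isBoundedAt_neg (ModularFormClass.isBoundedAt_heckeU (diamondMF (unitP hpN) f) p hc)))

/-- **The Hecke operator `T_p`, `p ∤ N`, on `M_k(Γ₁(N))`.** -/
def heckeT1MF (p : ℕ) [Fact p.Prime] (hpN : ¬ p ∣ N) :
    ModularForm (Gamma1 N) k →ₗ[ℂ] ModularForm (Gamma1 N) k where
  toFun f :=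
    { toFun := T1funMF hpN f
      slash_action_eq' := by
        rintro _ ⟨γ, hγ, rfl⟩
        exact inv1_TTfun hpN (isDiaFamily_diamondMF f) γ hγ
      holo' := mdiff_T1funMF hpN f
      bdd_at_cusps' := fun hc ↦ isBoundedAt_T1funMF hpN f hc }
  map_add' f g := DFunLike.coe_injective (T1funMF_add hpN f g)
  map_smul' c f := DFunLike.coe_injective (T1funMF_smul hpN c f)

theorem coe_heckeT1MF (hpN : ¬ p ∣ N) (f : ModularForm (Gamma1 N) k) :
    ⇑(heckeT1MF p hpN f) = heckeU k p ⇑f + ⇑(diamondMF (unitP hpN) f) ∣[k] heckeDiagMatrix p :=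
  T1funMF_eq hpN f

theorem coe_heckeT1MF_eq_sum (hpN : ¬ p ∣ N) (f : ModularForm (Gamma1 N) k) :
    ⇑(heckeT1MF p hpN f) = ∑ x : OnePoint (ZMod p), ⇑(diamondMF (wU hpN x) f) ∣[k] heckeRep p x :=
  rfl

/-- `T_p` commutes with the diamond operators. -/
theorem heckeT1MF_diamondMF_comm (hpN : ¬ p ∣ N) (d : (ZMod N)ˣ) :
    (heckeT1MF p hpN : ModularForm (Gamma1 N) k →ₗ[ℂ] _) ∘ₗ diamondMF d =
      diamondMF d ∘ₗ heckeT1MF p hpN := by
  ext f : 1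
  apply DFunLike.coe_injective
  rw [LinearMap.comp_apply, LinearMap.comp_apply]
  have hd := Gamma0Map_rep d
  have hrepN : (N : ℤ) ∣ ((rep d : Gamma0 N) : SL(2, ℤ)) 1 0 :=
    (ZMod.intCast_zmod_eq_zero_iff_dvd _ _).mp (Gamma0_mem.mp (rep d).2)
  have h1 : ⇑(diamondMF d (heckeT1MF p hpN f)) =
      ⇑(heckeT1MF p hpN f) ∣[k] mapGL ℝ ((rep d : Gamma0 N) : SL(2, ℤ)) := rfl
  rw [h1, coe_heckeT1MF_eq_sum, coe_heckeT1MF_eq_sum]
  have h2 := TTfun_slash hpN (isDiaFamily_diamondMF f) ((rep d : Gamma0 N) : SL(2, ℤ)) hrepN d hd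
  unfold TTfun at h2
  rw [h2]
  refine Finset.sum_congr rfl fun x _ ↦ ?_
  congr 1
  show ⇑(diamondMF (wU hpN x) (diamondMF d f)) = ⇑(diamondMF (d * wU hpN x) f)
  rw [mul_comm, diamondMF_mul]
  rfl

/-! ### `q`-expansions -/

/-- `q`-coefficients of `U_p F + G ∣[k] [p 0; 0 1]` for nice `F`, `G`, when the sum is nice. -/
theorem qCoeff_heckeU_add_diag {F G H : ℍ → ℂ} (hF : Nice F) (hG : Nice G) (hH : Nice H)
    (hHeq : H = heckeU k p F + G ∣[k] heckeDiagMatrix p) (n : ℕ) :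
    qCoeff H n =
      qCoeff F (n * p) + if p ∣ n then (p : ℂ) ^ (k - 1) * qCoeff G (n / p) else 0 := by
  have hp : p ≠ 0 := (Fact.out : p.Prime).ne_zero
  refine (hH.coeff_unique (c := fun n ↦ qCoeff F (n * p) +
    if p ∣ n then (p : ℂ) ^ (k - 1) * qCoeff G (n / p) else 0) (fun τ ↦ ?_) n).symm
  have h1 := hasSum_heckeU hp hF.per hF.hol hF.bdd k τ
  have h2 := hasSum_diag hp hG.per hG.hol hG.bdd k τ
  have h12 := h1.add h2
  have hval : H τ = heckeU k p F τ + (p : ℂ) ^ (k - 1) * G (heckeDiagMatrix p • τ) := by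
    rw [hHeq, Pi.add_apply, slash_heckeDiagMatrix_apply k hp]
  rw [hval]
  convert h12 using 1
  funext m
  simp only [coeffHeckeU_apply, smul_eq_mul]
  split_ifs <;> ring

/-- **The `q`-expansion of `T_p f`**: `a_n(T_p f) = a_{np}(f) + p^{k-1} a_{n/p}(⟨p⟩ f)`. -/
theorem qCoeff_heckeT1 (hpN : ¬ p ∣ N) (f : CuspForm (Gamma1 N) k) (n : ℕ) :
    qCoeff (heckeT1 p hpN f) n =
      qCoeff f (n * p) +
        if p ∣ n then (p : ℂ) ^ (k - 1) * qCoeff (diamond (unitP hpN) f) (n / p) else 0 :=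
  qCoeff_heckeU_add_diag (nice_coe f) (nice_coe (diamond (unitP hpN) f))
    (nice_coe (heckeT1 p hpN f)) (coe_heckeT1 hpN f) n

theorem qCoeff_heckeT1MF (hpN : ¬ p ∣ N) (f : ModularForm (Gamma1 N) k) (n : ℕ) :
    qCoeff (heckeT1MF p hpN f) n =
      qCoeff f (n * p) +
        if p ∣ n then (p : ℂ) ^ (k - 1) * qCoeff (diamondMF (unitP hpN) f) (n / p) else 0 :=
  qCoeff_heckeU_add_diag (nice_coe f) (nice_coe (diamondMF (unitP hpN) f))
    (nice_coe (heckeT1MF p hpN f)) (coe_heckeT1MF hpN f) n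

theorem qCoeff_smul_cusp (c : ℂ) (f : CuspForm (Gamma1 N) k) (n : ℕ) :
    qCoeff (⇑(c • f)) n = c * qCoeff f n := by
  refine ((nice_coe (c • f)).coeff_unique (c := fun n ↦ c * qCoeff f n) (fun τ ↦ ?_) n).symm
  have := ((nice_coe f).hasSum τ).mul_left c
  simpa only [smul_eq_mul, mul_assoc, FunLike.coe_smul, Pi.smul_apply] using this

theorem qCoeff_smul_mf (c : ℂ) (f : ModularForm (Gamma1 N) k) (n : ℕ) :
    qCoeff (⇑(c • f)) n = c * qCoeff f n := by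
  refine ((nice_coe (c • f)).coeff_unique (c := fun n ↦ c * qCoeff f n) (fun τ ↦ ?_) n).symm
  have := ((nice_coe f).hasSum τ).mul_left c
  simpa only [smul_eq_mul, mul_assoc, FunLike.coe_smul, Pi.smul_apply] using this

/-- The `q`-expansion of `T_p f` for `f` with nebentypus `χ`:
`a_n(T_p f) = a_{np}(f) + χ(p) p^{k-1} a_{n/p}(f)`. -/
theorem qCoeff_heckeT1_of_hasNeben (hpN : ¬ p ∣ N) (χ : DirichletCharacter ℂ N)
    (f : CuspForm (Gamma1 N) k) (hf : HasNeben χ f) (n : ℕ) :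
    qCoeff (heckeT1 p hpN f) n =
      qCoeff f (n * p) +
        if p ∣ n then χ (p : ZMod N) * ((p : ℂ) ^ (k - 1) * qCoeff f (n / p)) else 0 := by
  rw [qCoeff_heckeT1, hf (unitP hpN), qCoeff_smul_cusp, coe_unitP]
  split_ifs <;> ring

theorem qCoeff_heckeT1MF_of_hasNeben (hpN : ¬ p ∣ N) (χ : DirichletCharacter ℂ N)
    (f : ModularForm (Gamma1 N) k) (hf : HasNebenMF χ f) (n : ℕ) :
    qCoeff (heckeT1MF p hpN f) n =
      qCoeff f (n * p) +
        if p ∣ n then χ (p : ZMod N) * ((p : ℂ) ^ (k - 1) * qCoeff f (n / p)) else 0 := by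
  rw [qCoeff_heckeT1MF, hf (unitP hpN), qCoeff_smul_mf, coe_unitP]
  split_ifs <;> ring

end Fermat.Agent.DS.G1.Forms.HeckeOne67
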